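/-
Row S32 (flat at `p`), TOP GLUE — interface (helper32).

Goal: the frozen statement S32 (`H.ρ.IsFlatAt p` for a Hecke–Galois datum of level `N`, `p ∤ N`,
`p` odd) from

* the frozen S19 in the form `HopfModel p (Tors N p k)` (cell A3, the wall),
* the six inputs of the S30 skeleton (tower),
* `S59.G4.PointsStatement` (strict finite families of `p`-adic points of `T`).

Pieces (each a `Prop` below; `Top.lean` proves S32 from them):

* `FlatEigenStatement` (EIG): every eigencharacter has an adic eigenmodule all of whose finite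
  quotients carry Hopf models.
* `RelStatement` (REL): on the eigenmodule at a point `P` of `T`, EVERY `g ∈ G_ℚ` satisfies the
  characteristic polynomial of `H.ρ g`, specialised at `P`.
* `EmbedStatement` (EMB): Boston–Lenstra–Ribet + lattices + Artin–Rees: a strict semilinear
  equivariant embedding of `H.ρ.V` in the eigenmodule.
* `RedStatement` (RED): the coefficient ring `T` of a datum is reduced.
-/
import Fermat.Agent.S19.Defs
import Fermat.Agent.S30.H990.Interface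
import Fermat.Agent.S59.G4.Spec

set_option autoImplicit false

noncomputable section

namespace Fermat.Agent.S32

open IsLocalRing Fermat.Agent.S19 Fermat.Agent.S31

/-- The action induced on `M / I M`. -/
def modAct {A M : Type} [CommRing A] [AddCommGroup M] [Module A M]
    (ρ : GalQ →* Module.End A M) (I : Ideal A) (σ : GalQ) :
    (M ⧸ (I • (⊤ : Submodule A M))) →ₗ[A] (M ⧸ (I • (⊤ : Submodule A M))) :=
  Submodule.mapQ _ _ (ρ σ) (by
    rw [← Submodule.map_le_iff_le_comap, Submodule.map_smul'']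
    exact Submodule.smul_mono le_rfl le_top)

@[simp] theorem modAct_mk {A M : Type} [CommRing A] [AddCommGroup M] [Module A M]
    (ρ : GalQ →* Module.End A M) (I : Ideal A) (σ : GalQ) (v : M) :
    modAct ρ I σ (Submodule.Quotient.mk v) = Submodule.Quotient.mk (ρ σ v) := rfl

/-- A module with Galois action all of whose finite quotients `M / I M` carry Hopf models over
`ℤ_(p)` (the rank-free form of `GaloisRepAdic.IsFlatAt`). -/
def IsFlatMod (p : ℕ) {A M : Type} [CommRing A] [AddCommGroup M] [Module A M]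
    (ρ : GalQ →* Module.End A M) : Prop :=
  ∀ I : Ideal A, Finite (A ⧸ I) →
    HopfModel p (M ⧸ (I • (⊤ : Submodule A M))) (fun σ x => modAct ρ I σ x)

/-- **EIG.**  For `p ∤ N`, every eigencharacter with values in a complete DVR has an adic
eigenmodule which is flat. -/
def FlatEigenStatement : Prop :=
  ∀ (p : ℕ) [Fact p.Prime] (N : ℕ) [NeZero N] (S : Finset ℕ)
    (_hpS : p ∈ S) (_hNS : ∀ q : ℕ, q.Prime → q ∣ N → q ∈ S) (_hpN : ¬ p ∣ N)
    (𝒪' : Type) [CommRing 𝒪'] [IsDomain 𝒪'] [IsDiscreteValuationRing 𝒪']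
    [IsAdicComplete (maximalIdeal 𝒪') 𝒪'] [Finite (ResidueField 𝒪')]
    [CharZero 𝒪'] (_hp𝒪' : (p : 𝒪') ∈ maximalIdeal 𝒪')
    (χ : CuspForm.heckeAlgebra N 2 (↑S : Set ℕ) →+* 𝒪'),
    ∃ E : Fermat.Agent.S30.H990.AdicEigenModule p N S 𝒪' χ, IsFlatMod p E.ρ

/-- **REL.**  At a local point `P` of the coefficient ring of a datum, every element of `G_ℚ`
satisfies on the eigenmodule of `P.χ ∘ π` the characteristic polynomial of `H.ρ`. -/
def RelStatement : Prop :=
  ∀ (p : ℕ) [Fact p.Prime] (N : ℕ) [NeZero N] (S : Finset ℕ)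
    (_hpS : p ∈ S) (_hNS : ∀ q : ℕ, q.Prime → q ∣ N → q ∈ S)
    (𝒪 : Type) [CommRing 𝒪] [IsDomain 𝒪] [IsDiscreteValuationRing 𝒪]
    [IsAdicComplete (maximalIdeal 𝒪) 𝒪]
    (θ : CuspForm.heckeAlgebra N 2 (↑S : Set ℕ) →+* ResidueField 𝒪)
    (T : Type) [CommRing T] [IsLocalRing T] [IsNoetherianRing T]
    [IsAdicComplete (maximalIdeal T) T] [Algebra 𝒪 T] [IsLocalHom (algebraMap 𝒪 T)]
    [Module.Finite 𝒪 T] [Module.Free 𝒪 T]
    (H : CuspForm.HeckeGaloisRepDatum N (↑S : Set ℕ) 𝒪 θ T)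
    (P : PadicPoint p T) (_hloc : IsLocalHom P.χ)
    (E : Fermat.Agent.S30.H990.AdicEigenModule p N S P.O (P.χ.comp H.π)) (g : GalQ),
    E.ρ g * E.ρ g - P.χ (H.ρ.trace g) • E.ρ g
      + P.χ ((H.ρ.det g : Tˣ) : T) • (1 : Module.End P.O E.M) = 0

/-- **EMB.**  Let `ρ` be a two-dimensional representation over a local ring `T` whose image spans
`End_T V`, `ψ : T → 𝒪'` a point with values in a DVR with `2 ≠ 0`, and `M ≠ 0` a finite free
`𝒪'`-module with Galois action on which every `g` satisfies the characteristic polynomial of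
`ρ g` specialised along `ψ`.  Then there is a `ψ`-semilinear equivariant map `φ : V → M` which
is strict: `φ v ∈ 𝔪 ^ (m + k) M` implies `v ∈ ψ⁻¹(𝔪 ^ m) V`. -/
def EmbedStatement : Prop :=
  ∀ (T : Type) [CommRing T] [IsLocalRing T] (ρ : GaloisRepAdic T),
    Submodule.span T (Set.range ρ.ρ) = ⊤ →
    ∀ (𝒪' : Type) [CommRing 𝒪'] [IsDomain 𝒪'] [IsDiscreteValuationRing 𝒪'],
      (2 : 𝒪') ≠ 0 → ∀ (ψ : T →+* 𝒪')
      (M : Type) [AddCommGroup M] [Module 𝒪' M] [Module.Free 𝒪' M] [Module.Finite 𝒪' M]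
      [Nontrivial M] (ρM : GalQ →* Module.End 𝒪' M),
      (∀ g : GalQ, ρM g * ρM g - ψ (ρ.trace g) • ρM g
        + ψ ((ρ.det g : Tˣ) : T) • (1 : Module.End 𝒪' M) = 0) →
      ∃ φ : ρ.V →+ M, (∀ (t : T) (v : ρ.V), φ (t • v) = ψ t • φ v) ∧
        (∀ (g : GalQ) (v : ρ.V), φ (ρ.ρ g v) = ρM g (φ v)) ∧
        ∃ k : ℕ, ∀ (m : ℕ) (v : ρ.V),
          φ v ∈ (maximalIdeal 𝒪' ^ (m + k)) • (⊤ : Submodule 𝒪' M) →
            v ∈ (Ideal.comap ψ (maximalIdeal 𝒪' ^ m)) • (⊤ : Submodule T ρ.V)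

/-- **RED.**  The coefficient ring of a Hecke–Galois datum is reduced. -/
def RedStatement : Prop :=
  ∀ (N : ℕ) [NeZero N] (S : Finset ℕ) (_hNS : ∀ q : ℕ, q.Prime → q ∣ N → q ∈ S)
    (𝒪 : Type) [CommRing 𝒪] [IsDomain 𝒪] [IsDiscreteValuationRing 𝒪]
    [IsAdicComplete (maximalIdeal 𝒪) 𝒪] [CharZero 𝒪]
    (θ : CuspForm.heckeAlgebra N 2 (↑S : Set ℕ) →+* ResidueField 𝒪)
    (T : Type) [CommRing T] [IsLocalRing T] [IsNoetherianRing T]
    [IsAdicComplete (maximalIdeal T) T] [Algebra 𝒪 T] [IsLocalHom (algebraMap 𝒪 T)]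
    [Module.Finite 𝒪 T] [Module.Free 𝒪 T]
    (_H : CuspForm.HeckeGaloisRepDatum N (↑S : Set ℕ) 𝒪 θ T), IsReduced T

/-- The frozen statement S32, as a `Prop`. -/
def S32Statement : Prop :=
  ∀ {p : ℕ} {N : ℕ} [NeZero N] {S : Finset ℕ}
    {𝒪 : Type} [CommRing 𝒪] [IsDomain 𝒪] [IsDiscreteValuationRing 𝒪]
    [IsAdicComplete (maximalIdeal 𝒪) 𝒪]
    {θ : CuspForm.heckeAlgebra N 2 (↑S : Set ℕ) →+* ResidueField 𝒪}
    {T : Type} [CommRing T] [IsLocalRing T] [IsNoetherianRing T]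
    [IsAdicComplete (maximalIdeal T) T] [Algebra 𝒪 T] [IsLocalHom (algebraMap 𝒪 T)]
    [Module.Finite 𝒪 T] [Module.Free 𝒪 T]
    [Finite (ResidueField 𝒪)] [CharZero 𝒪],
    p.Prime → p ≠ 2 → (p : 𝒪) ∈ maximalIdeal 𝒪 → ¬ p ∣ N → p ∈ S →
    (∀ q : ℕ, q.Prime → q ∣ N → q ∈ S) →
    ∀ H : CuspForm.HeckeGaloisRepDatum N (↑S : Set ℕ) 𝒪 θ T, H.ρ.IsFlatAt p

end Fermat.Agent.S32
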