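/-
Row S32 (flat at `p`), TOP GLUE — assembly (helper32).

`s32_of_pieces` : the frozen statement S32 from the pieces EIG, REL, EMB, RED of `Spec.lean`,
`S59.G4.PointsStatement` and the (landed) ORD block of cell A3.

Proof.  `T` is reduced (RED), so it has a strict finite family of local `p`-adic points `P_i`
(POINTS).  At each point: a flat eigenmodule `E_i` (EIG) on which every `g` satisfies the
characteristic polynomial of `H.ρ g` (REL), hence a strict semilinear equivariant map
`φ_i : V → E_i.M` (EMB; `T[G] → End V` is onto by Burnside–Nakayama, `S31.H202`).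
For an ideal `I` of finite colength, `𝔪_T ^ n ≤ I`; strictness of the points and of the `φ_i`
gives exponents with `ker (V → ∏ E_i.M / J_i) ≤ I V`.  So `V / I V` is an equivariant
sub-quotient of the finite product `∏ E_i.M / J_i` of Hopf models (closure, `S19.H135`).
-/
import Fermat.Agent.S32.Spec
import Fermat.Agent.S19.H135.Closure
import Fermat.Agent.S31.H202.TraceRigid

set_option autoImplicit false

noncomputable section

namespace Fermat.Agent.S32

open IsLocalRing Fermat.Agent.S19 Fermat.Agent.S31 Fermat.Agent.S59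

/-! ### Finite dependent products of Hopf models -/

section DepProd

variable (hord : OrdStatement) {ℓ : ℕ} [Fact ℓ.Prime]

include hord

theorem hopfModel_piFin (n : ℕ) : ∀ (M : Fin n → Type) [_inst : ∀ i, AddCommGroup (M i)]
    (act : ∀ i, GalQ → M i → M i), (∀ i, HopfModel ℓ (M i) (act i)) →
    HopfModel ℓ (∀ i, M i) (fun σ v i => act i σ (v i)) := by
  induction n with
  | zero =>
    intro M _ act _
    exact (H135.hasHopfLattice_of_subsingleton).hopfModel hord
  | succ n ih =>
    intro M _ act h
    have h1 := H135.hopfModel_prod hord (h 0)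
      (ih (fun i => M i.succ) (fun i => act i.succ) (fun i => h i.succ))
    let e : (M 0 × (∀ i : Fin n, M i.succ)) ≃+ (∀ i, M i) :=
      { toFun := fun q => Fin.cons (α := M) q.1 q.2
        invFun := fun v => (v 0, fun i => v i.succ)
        left_inv := fun q => by simp
        right_inv := fun v => by
          funext i
          refine Fin.cases ?_ (fun i => ?_) i <;> simp
        map_add' := fun q q' => by
          funext i
          refine Fin.cases ?_ (fun i => ?_) i <;> simp }
    refine H135.hopfModel_of_addEquiv hord h1 e ?_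
    intro σ q
    funext i
    refine Fin.cases ?_ (fun i => ?_) i <;> simp [e]

/-- A module `W` which is an equivariant quotient of `V`, such that the kernel of `V → W`
contains the common kernel of finitely many equivariant maps from `V` to Hopf models, is a Hopf
model. -/
theorem hopfModel_of_family {V W : Type} [AddCommGroup V] [AddCommGroup W]
    (actV : GalQ → V →+ V) (actW : GalQ → W → W) (n : ℕ) (M : Fin n → Type)
    [∀ i, AddCommGroup (M i)] (act : ∀ i, GalQ → M i → M i)
    (hM : ∀ i, HopfModel ℓ (M i) (act i))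
    (f : ∀ i, V →+ M i) (hf : ∀ i σ v, f i (actV σ v) = act i σ (f i v))
    (π : V →+ W) (hπ : Function.Surjective π) (hπeq : ∀ σ v, π (actV σ v) = actW σ (π v))
    (hker : ∀ v, (∀ i, f i v = 0) → π v = 0) : HopfModel ℓ W actW := by
  have hprod := hopfModel_piFin hord n M act hM
  have hact0 : ∀ i σ, act i σ 0 = 0 := by
    intro i σ
    have h := H135.HopfModel.act_add_h135 (hM i) σ 0 0
    rw [add_zero] at h
    exact left_eq_add.mp h
  let j : V →+ (∀ i, M i) := AddMonoidHom.pi f
  have hj : ∀ v i, j v i = f i v := fun _ _ => rfl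
  have hjeq : ∀ σ v, j (actV σ v) = fun i => act i σ (j v i) := by
    intro σ v
    funext i
    exact hf i σ v
  have hstab : ∀ σ : GalQ, j.ker ≤ j.ker.comap (actV σ) := by
    intro σ v hv
    rw [AddSubgroup.mem_comap, AddMonoidHom.mem_ker]
    rw [AddMonoidHom.mem_ker] at hv
    rw [hjeq, hv]
    funext i
    exact hact0 i σ
  have hle : j.ker ≤ π.ker := by
    intro v hv
    rw [AddMonoidHom.mem_ker] at hv ⊢
    exact hker v fun i => by rw [← hj, hv]; rfl
  refine H135.hopfModel_of_subquotient hord (M₁ := V ⧸ j.ker)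
    (act₁ := fun σ => QuotientAddGroup.map j.ker j.ker (actV σ) (hstab σ)) hprod
    (QuotientAddGroup.kerLift j) (QuotientAddGroup.kerLift_injective j) ?_
    (QuotientAddGroup.lift j.ker π hle) ?_ ?_
  · intro σ m
    induction m using QuotientAddGroup.induction_on with
    | H v => exact hjeq σ v
  · intro y
    obtain ⟨v, rfl⟩ := hπ y
    exact ⟨QuotientAddGroup.mk v, rfl⟩
  · intro σ m
    induction m using QuotientAddGroup.induction_on with
    | H v => exact hπeq σ v

end DepProd

/-! ### Auxiliary algebra -/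

section Aux

variable {T : Type} [CommRing T] [IsLocalRing T] [IsNoetherianRing T]

/-- An ideal of finite colength in a Noetherian local ring contains a power of the maximal
ideal. -/
theorem exists_pow_le_of_finite_quotient (I : Ideal T) (hI : Finite (T ⧸ I)) :
    ∃ n : ℕ, maximalIdeal T ^ n ≤ I := by
  refine Ideal.exists_pow_le_of_le_radical_of_fg ?_ (IsNoetherian.noetherian _)
  intro x hx
  -- two powers of `x` agree modulo `I`
  obtain ⟨a, b, hab, hEq⟩ : ∃ a b : ℕ, a < b ∧
      Ideal.Quotient.mk I (x ^ a) = Ideal.Quotient.mk I (x ^ b) := by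
    have hninj : ¬ Function.Injective (fun k : ℕ => Ideal.Quotient.mk I (x ^ k)) :=
      not_injective_infinite_finite _
    rw [Function.Injective] at hninj
    push Not at hninj
    obtain ⟨a, b, hEq, hne⟩ := hninj
    rcases Nat.lt_or_gt_of_ne hne with h | h
    · exact ⟨a, b, h, hEq⟩
    · exact ⟨b, a, h, hEq.symm⟩
  obtain ⟨c, rfl⟩ : ∃ c, b = a + (c + 1) := ⟨b - a - 1, by omega⟩
  have h1 : x ^ a * (1 - x ^ (c + 1)) ∈ I := by
    rw [← Ideal.Quotient.eq_zero_iff_mem, mul_sub, mul_one, ← pow_add, map_sub, hEq, sub_self]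
  have hu : IsUnit (1 - x ^ (c + 1)) := by
    have hm : x ^ (c + 1) ∈ maximalIdeal T := Ideal.pow_mem_of_mem _ hx _ (by omega)
    by_contra hnu
    have h2 : 1 - x ^ (c + 1) ∈ maximalIdeal T := (mem_maximalIdeal _).mpr hnu
    have h3 : (1 : T) ∈ maximalIdeal T := by
      have := Ideal.add_mem _ h2 hm
      rwa [sub_add_cancel] at this
    exact (Ideal.ne_top_iff_one _).mp (maximalIdeal.isMaximal T).ne_top h3
  refine ⟨a, ?_⟩
  obtain ⟨u, hu'⟩ := hu
  have h4 : x ^ a = x ^ a * (1 - x ^ (c + 1)) * ((u⁻¹ : Tˣ) : T) := by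
    rw [mul_assoc, ← hu', Units.mul_inv, mul_one]
  rw [h4]
  exact Ideal.mul_mem_right _ _ h1

omit [IsLocalRing T] [IsNoetherianRing T] in
/-- Membership in `J V` for a finite free module is tested on coordinates. -/
theorem mem_smul_top_of_repr {V : Type} [AddCommGroup V] [Module T V] {ι : Type} [Fintype ι]
    (b : Module.Basis ι T V) (J : Ideal T) (v : V) (h : ∀ i, b.repr v i ∈ J) :
    v ∈ J • (⊤ : Submodule T V) := by
  rw [← b.sum_repr v]
  exact Submodule.sum_mem _ fun i _ => Submodule.smul_mem_smul (h i) Submodule.mem_top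

omit [IsLocalRing T] [IsNoetherianRing T] in
theorem repr_mem_of_mem_smul_top' {V : Type} [AddCommGroup V] [Module T V] {ι : Type}
    (b : Module.Basis ι T V) (J : Ideal T) (v : V) (h : v ∈ J • (⊤ : Submodule T V)) (i : ι) :
    b.repr v i ∈ J := by
  refine Submodule.smul_induction_on h ?_ ?_
  · intro r hr w _
    rw [map_smul, Finsupp.smul_apply, smul_eq_mul]
    exact Ideal.mul_mem_right _ _ hr
  · intro x y hx hy
    rw [map_add, Finsupp.add_apply]
    exact Ideal.add_mem _ hx hy

end Aux

/-! ### The assembly -/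

section Asm

open Fermat.Agent.S30.H990 (AdicEigenModule)

/-- **S32 from the pieces.** -/
theorem s32_of_pieces (hord : OrdStatement) (hEig : FlatEigenStatement) (hRel : RelStatement)
    (hEmb : EmbedStatement) (hRed : RedStatement) (hPts : G4.PointsStatement) :
    S32Statement := by
  intro p N _ S 𝒪 _ _ _ _ θ T _ _ _ _ _ _ _ _ _ _ hp _ hp𝒪 hpN hpS hNS H
  have : Fact p.Prime := ⟨hp⟩
  have : IsReduced T := hRed N S hNS 𝒪 θ T H
  obtain ⟨F, hstrict, hloc⟩ := hPts p 𝒪 hp𝒪 T
  have hspan := H202.span_range_rho_eq_top H.ρ H.residual_absIrr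
  -- the residue field of `T` is finite
  have hresT : Finite (ResidueField T) :=
    Finite.of_surjective (fun x : ResidueField 𝒪 =>
      ResidueField.map (algebraMap 𝒪 T) x) (by
        intro y
        obtain ⟨a, rfl⟩ := H.residue_surjective y
        exact ⟨residue 𝒪 a, rfl⟩)
  refine ⟨hresT, fun I hI => ?_⟩
  obtain ⟨n, hn⟩ := exists_pow_le_of_finite_quotient I hI
  obtain ⟨n', hn'⟩ := hstrict n
  -- the data at the points
  have hpt : ∀ i : Fin F.length, ∃ (E : AdicEigenModule p N S (F.get i).O
      ((F.get i).χ.comp H.π)) (φ : H.ρ.V →+ E.M) (k : ℕ), IsFlatMod p E.ρ ∧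
      (∀ (g : GalQ) (v : H.ρ.V), φ (H.ρ.ρ g v) = E.ρ g (φ v)) ∧
      ∀ (m : ℕ) (v : H.ρ.V),
        φ v ∈ (maximalIdeal (F.get i).O ^ (m + k)) • (⊤ : Submodule (F.get i).O E.M) →
          v ∈ (Ideal.comap (F.get i).χ (maximalIdeal (F.get i).O ^ m)) •
            (⊤ : Submodule T H.ρ.V) := by
    intro i
    have hmem : F.get i ∈ F := List.get_mem F i
    obtain ⟨E, hE⟩ := hEig p N S hpS hNS hpN (F.get i).O (F.get i).hp ((F.get i).χ.comp H.π)
    have hrel := hRel p N S hpS hNS 𝒪 θ T H (F.get i) (hloc _ hmem) E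
    have h2 : (2 : (F.get i).O) ≠ 0 := two_ne_zero
    obtain ⟨φ, -, heq, k, hk⟩ := hEmb T H.ρ hspan (F.get i).O h2 (F.get i).χ E.M E.ρ hrel
    exact ⟨E, φ, k, hE, heq, hk⟩
  choose E φ k hflat heq hstr using hpt
  -- the ideals and the finite quotients
  have hJfin : ∀ i : Fin F.length,
      Finite ((F.get i).O ⧸ maximalIdeal (F.get i).O ^ (n' + k i)) := by
    intro i
    have : Finite ((F.get i).O ⧸ maximalIdeal (F.get i).O) :=
      (inferInstance : Finite (ResidueField (F.get i).O))
    exact Ideal.finite_quotient_pow (IsNoetherian.noetherian _) _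
  show HopfModel p (H.ρ.V ⧸ (I • (⊤ : Submodule T H.ρ.V))) (fun σ x => H.ρ.levelAction I σ x)
  refine hopfModel_of_family hord (fun σ => (H.ρ.ρ σ).toAddMonoidHom) _ F.length
    (fun i => (E i).M ⧸ ((maximalIdeal (F.get i).O ^ (n' + k i)) •
      (⊤ : Submodule (F.get i).O (E i).M)))
    (fun i σ x => modAct (E i).ρ (maximalIdeal (F.get i).O ^ (n' + k i)) σ x)
    (fun i => hflat i _ (hJfin i))
    (fun i => (Submodule.mkQ _).toAddMonoidHom.comp (φ i)) ?_
    (Submodule.mkQ (I • (⊤ : Submodule T H.ρ.V))).toAddMonoidHom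
    (Submodule.mkQ_surjective _) (fun _ _ => rfl) ?_
  · intro i σ v
    exact congrArg (Submodule.Quotient.mk (p := (maximalIdeal (F.get i).O ^ (n' + k i)) •
      (⊤ : Submodule (F.get i).O (E i).M))) (heq i σ v)
  · intro v hv
    refine (Submodule.Quotient.mk_eq_zero _).mpr ?_
    let b := Module.Free.chooseBasis T H.ρ.V
    refine mem_smul_top_of_repr b I v fun c => hn (hn' _ fun P hP => ?_)
    obtain ⟨i, rfl⟩ := List.mem_iff_get.mp hP
    have h1 : φ i v ∈ (maximalIdeal (F.get i).O ^ (n' + k i)) •
        (⊤ : Submodule (F.get i).O (E i).M) :=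
      (Submodule.Quotient.mk_eq_zero _).mp (hv i)
    exact repr_mem_of_mem_smul_top' b _ v (hstr i n' v h1) c

end Asm

end Fermat.Agent.S32
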