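/-
Row S32 (flat at `p`), piece EIG (helper32): flat adic eigenmodules.

The Tate eigenmodule `M = S30.H529.tateEigen p (1 ⊗ T) a ⊆ (ℕ → 𝒪 ⊗ J)` of row S30 is FLAT
(`IsFlatMod`) as soon as the torsion groups `J[p ^ k]` carry Hopf models:
evaluation at the `n`-th component `M → 𝒪 ⊗ J` has kernel `p ^ (n + 1) M` and image in
`(𝒪 ⊗ J)[p ^ (n + 1)]`, which is the image of `J[p ^ (n + 1)] ^ r` under
`y ↦ ∑ o_i ⊗ y_i` (`o_i` representatives of `𝒪 / p ^ (n + 1)`).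
-/
import Fermat.Agent.S32.Top
import Fermat.Agent.S30.H649.TateAdapter
import Fermat.Prelude.Def_ModularCurve_HeckeModule

set_option autoImplicit false

noncomputable section

namespace Fermat.Agent.S32

open IsLocalRing TensorProduct Fermat.Agent.S19 Fermat.Agent.S30

/-! ### The map `J[c] ^ r → 𝒪 ⊗ J` -/

section SumTensor

variable {𝒪 : Type} [CommRing 𝒪]
variable {J : Type} [AddCommGroup J]

/-- `y ↦ ∑ o_i ⊗ y_i`. -/
def sumTensor (c : ℤ) {r : ℕ} (o : Fin r → 𝒪) :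
    (Fin r → ↥(Submodule.torsionBy ℤ J c)) →+ 𝒪 ⊗[ℤ] J where
  toFun y := ∑ i, o i ⊗ₜ[ℤ] ((y i : ↥(Submodule.torsionBy ℤ J c)) : J)
  map_zero' := by simp
  map_add' := by
    intro y y'
    simp [TensorProduct.tmul_add, Finset.sum_add_distrib]

theorem sumTensor_apply (c : ℤ) {r : ℕ} (o : Fin r → 𝒪)
    (y : Fin r → ↥(Submodule.torsionBy ℤ J c)) :
    sumTensor c o y = ∑ i, o i ⊗ₜ[ℤ] ((y i : ↥(Submodule.torsionBy ℤ J c)) : J) := rfl

theorem sumTensor_single (c : ℤ) {r : ℕ} (o : Fin r → 𝒪) (i : Fin r)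
    (y : ↥(Submodule.torsionBy ℤ J c)) :
    sumTensor c o (Pi.single i y) = o i ⊗ₜ[ℤ] (y : J) := by
  classical
  rw [sumTensor_apply, Finset.sum_eq_single i]
  · rw [Pi.single_eq_same]
  · intro j _ hj
    rw [Pi.single_eq_of_ne hj]
    simp
  · intro h
    exact absurd (Finset.mem_univ i) h

/-- Elements of `𝒪 ⊗ J` killed by `c` are in the range of `sumTensor` if the `o_i` represent
all classes modulo `c`. -/
theorem mem_range_sumTensor [Module.Flat ℤ 𝒪] (c : ℤ) {r : ℕ} (o : Fin r → 𝒪)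
    (ho : ∀ a : 𝒪, ∃ i : Fin r, ∃ d : 𝒪, a = o i + d * (c : 𝒪))
    (x : 𝒪 ⊗[ℤ] J) (hx : c • x = 0) :
    x ∈ (sumTensor (J := J) c o).range := by
  obtain ⟨z, rfl⟩ := H529.exists_lTensor_eq_of_smul_eq_zero 𝒪 c x hx
  clear hx
  induction z using TensorProduct.induction_on with
  | zero =>
    rw [map_zero]
    exact AddSubgroup.zero_mem _
  | tmul a y =>
    obtain ⟨i, d, hd⟩ := ho a
    have hy : c • (y : J) = 0 := by
      have := y.2
      rwa [LinearMap.mem_ker, LinearMap.smul_apply, LinearMap.id_apply] at this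
    have hyt : (y : J) ∈ Submodule.torsionBy ℤ J c := by
      rw [Submodule.mem_torsionBy_iff]
      exact hy
    refine ⟨Pi.single i ⟨(y : J), hyt⟩, ?_⟩
    rw [sumTensor_single, LinearMap.lTensor_tmul, Submodule.subtype_apply, hd,
      TensorProduct.add_tmul]
    have h0 : (d * (c : 𝒪)) ⊗ₜ[ℤ] (y : J) = 0 := by
      have h1 : d * (c : 𝒪) = c • d := by
        rw [zsmul_eq_mul, mul_comm]
      rw [h1, TensorProduct.smul_tmul, hy, TensorProduct.tmul_zero]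
    rw [h0, add_zero]
  | add z z' hz hz' =>
    rw [map_add]
    exact AddSubgroup.add_mem _ hz hz'

end SumTensor

/-! ### Representatives modulo a nonzero element of a DVR with finite residue field -/

section Reps

variable {O : Type} [CommRing O] [IsDomain O] [IsDiscreteValuationRing O]
  [Finite (ResidueField O)]

theorem exists_reps {x : O} (hx : x ≠ 0) :
    ∃ (r : ℕ) (o : Fin r → O), ∀ a : O, ∃ i : Fin r, ∃ d : O, a = o i + d * x := by
  obtain ⟨n, hn⟩ := H529.exists_pow_maximalIdeal_le_span hx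
  have h1 : Finite (O ⧸ maximalIdeal O ^ n) := by
    have : Finite (O ⧸ maximalIdeal O) := (inferInstance : Finite (ResidueField O))
    exact Ideal.finite_quotient_pow (IsNoetherian.noetherian _) n
  have h2 : Finite (O ⧸ Ideal.span {x}) :=
    Finite.of_surjective (Ideal.Quotient.factor hn) (Ideal.Quotient.factor_surjective hn)
  let e := Finite.equivFin (O ⧸ Ideal.span {x})
  refine ⟨Nat.card (O ⧸ Ideal.span {x}),
    fun i => Function.surjInv Ideal.Quotient.mk_surjective (e.symm i), fun a => ?_⟩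
  refine ⟨e (Ideal.Quotient.mk _ a), ?_⟩
  have h3 : Ideal.Quotient.mk (Ideal.span {x})
      (Function.surjInv Ideal.Quotient.mk_surjective (e.symm (e (Ideal.Quotient.mk _ a)))) =
      Ideal.Quotient.mk _ a :=
    (Function.surjInv_eq Ideal.Quotient.mk_surjective _).trans (e.symm_apply_apply _)
  have h4 : a - Function.surjInv Ideal.Quotient.mk_surjective
      (e.symm (e (Ideal.Quotient.mk (Ideal.span {x}) a))) ∈ Ideal.span {x} := by
    rw [← Ideal.Quotient.eq_zero_iff_mem, map_sub, h3, sub_self]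
  obtain ⟨d, hd⟩ := Ideal.mem_span_singleton'.mp h4
  exact ⟨d, by rw [hd]; ring⟩

end Reps

/-! ### Flatness of the Tate eigenmodule -/

section Flat

variable (p : ℕ)
variable (O : Type) [CommRing O] [IsDomain O] [IsDiscreteValuationRing O]
  [Finite (ResidueField O)] [CharZero O]
variable (J : Type) [AddCommGroup J] [DistribMulAction GalQ J]
variable {ι : Type*} (T : ι → J →+ J) (a : ι → O)

/-- **The Tate eigenmodule is flat** if the torsion groups `J[p ^ k]` carry Hopf models. -/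
theorem tateEigen_isFlatMod (hord : OrdStatement) [Fact p.Prime]
    (hpO : (p : O) ∈ maximalIdeal O)
    (hT : ∀ (i : ι) (γ : GalQ) (x : J), T i (γ • x) = γ • T i x)
    (hJ : ∀ k : ℕ, ∃ act : GalQ → ↥(Submodule.torsionBy ℤ J ((p : ℤ) ^ k)) →
        ↥(Submodule.torsionBy ℤ J ((p : ℤ) ^ k)),
      (∀ σ m, ((act σ m : ↥(Submodule.torsionBy ℤ J ((p : ℤ) ^ k))) : J) = σ • (m : J)) ∧
        HopfModel p ↥(Submodule.torsionBy ℤ J ((p : ℤ) ^ k)) act) :
    IsFlatMod p (H529.tateRep (ϖ := (p : O)) (a := a) (H529.tensorRep O J)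
      (H529.tensorRep_tensorOp O T hT)) := by
  intro I hI
  have hp0 : (p : O) ≠ 0 := by
    exact_mod_cast (Fact.out : p.Prime).ne_zero
  obtain ⟨n, hn⟩ := exists_pow_le_of_finite_quotient I hI
  have hpI : (p : O) ^ (n + 1) ∈ I := by
    rw [pow_succ]
    exact Ideal.mul_mem_right _ _ (hn (Ideal.pow_mem_pow hpO n))
  have hc : (((p : ℤ) ^ (n + 1) : ℤ) : O) = (p : O) ^ (n + 1) := by push_cast; rfl
  obtain ⟨r, o, ho⟩ := exists_reps (pow_ne_zero (n + 1) hp0)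
  obtain ⟨act, hact, hHopf⟩ := hJ (n + 1)
  -- the Hopf model on the range of `sumTensor`
  have hseq : ∀ (σ : GalQ) (z : Fin r → ↥(Submodule.torsionBy ℤ J ((p : ℤ) ^ (n + 1)))),
      H529.tensorRep O J σ (sumTensor ((p : ℤ) ^ (n + 1)) o z) =
        sumTensor ((p : ℤ) ^ (n + 1)) o (fun i => act σ (z i)) := by
    intro σ z
    rw [sumTensor_apply, sumTensor_apply, map_sum]
    refine Finset.sum_congr rfl fun i _ => ?_
    rw [H529.tensorRep_apply, LinearMap.baseChange_tmul, H529.actLin_apply, hact]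
  have hstabY : ∀ (σ : GalQ) (y : O ⊗[ℤ] J),
      y ∈ (sumTensor (J := J) ((p : ℤ) ^ (n + 1)) o).range →
        H529.tensorRep O J σ y ∈ (sumTensor (J := J) ((p : ℤ) ^ (n + 1)) o).range := by
    rintro σ _ ⟨z, rfl⟩
    exact ⟨_, (hseq σ z).symm⟩
  have hY : HopfModel p ↥(sumTensor (J := J) ((p : ℤ) ^ (n + 1)) o).range
      (fun σ y => ⟨H529.tensorRep O J σ y.1, hstabY σ y.1 y.2⟩) := by
    refine H135.hopfModel_of_surjective hord (H135.hopfModel_power hord hHopf (Fin r))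
      (sumTensor (J := J) ((p : ℤ) ^ (n + 1)) o).rangeRestrict
      (AddMonoidHom.rangeRestrict_surjective _) ?_
    intro σ z
    apply Subtype.ext
    exact (hseq σ z).symm
  -- evaluation at the `n`-th component
  have hev : ∀ v : ↥(H529.tateEigen (p : O) (H529.tensorOp O T) a),
      H529.tateEval (p : O) (H529.tensorOp O T) a n v ∈
        (sumTensor (J := J) ((p : ℤ) ^ (n + 1)) o).range := by
    intro v
    refine mem_range_sumTensor _ o (fun b => ?_) _ ?_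
    · obtain ⟨i, d, hd⟩ := ho b
      exact ⟨i, d, by rw [hc]; exact hd⟩
    · rw [← Int.cast_smul_eq_zsmul O, hc, H529.tateEval_apply]
      exact H529.tate_pow_succ_smul v.2 n
  let e' : ↥(H529.tateEigen (p : O) (H529.tensorOp O T) a) →+
      ↥(sumTensor (J := J) ((p : ℤ) ^ (n + 1)) o).range :=
    (H529.tateEval (p : O) (H529.tensorOp O T) a n).toAddMonoidHom.codRestrict _ hev
  refine hopfModel_of_family hord
    (fun σ => (H529.tateRep (ϖ := (p : O)) (a := a) (H529.tensorRep O J)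
      (H529.tensorRep_tensorOp O T hT) σ).toAddMonoidHom) _ 1
    (fun _ => ↥(sumTensor (J := J) ((p : ℤ) ^ (n + 1)) o).range)
    (fun _ σ y => ⟨H529.tensorRep O J σ y.1, hstabY σ y.1 y.2⟩) (fun _ => hY)
    (fun _ => e') ?_ (Submodule.mkQ _).toAddMonoidHom (Submodule.mkQ_surjective _)
    (fun _ _ => rfl) ?_
  · intro _ σ v
    apply Subtype.ext
    rfl
  · intro v hv
    refine (Submodule.Quotient.mk_eq_zero _).mpr ?_
    have h0 : (v : ℕ → O ⊗[ℤ] J) n = 0 := congrArg Subtype.val (hv 0)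
    have hlt : ∀ m, m < n + 1 → (v : ℕ → O ⊗[ℤ] J) m = 0 := by
      intro m hm
      obtain ⟨k, rfl⟩ : ∃ k, n = m + k := ⟨n - m, by omega⟩
      rw [← H529.tate_pow_smul v.2 k m, h0, smul_zero]
    obtain ⟨w, hw, hvw⟩ := H529.tate_exists_eq_pow_smul v.2 (n + 1) hlt
    have h1 : v = (p : O) ^ (n + 1) • (⟨w, hw⟩ : ↥(H529.tateEigen (p : O)
        (H529.tensorOp O T) a)) := by
      apply Subtype.ext
      rw [hvw]
      rfl
    rw [h1]
    exact Submodule.smul_mem_smul hpI Submodule.mem_top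

end Flat

/-! ### The flat eigenmodule (the S30 constructions, with flatness) -/

section Main

variable (p : ℕ)
variable (O : Type) [CommRing O] [IsDomain O] [IsDiscreteValuationRing O]
  [IsAdicComplete (maximalIdeal O) O] [Finite (ResidueField O)] [CharZero O]
variable (J : Type) [AddCommGroup J] [DistribMulAction GalQ J]
variable {ι : Type*} (T : ι → J →+ J) (a : ι → O)

/-- `S30.H529.exists_adic_galois_eigenmodule` with the additional conclusion `IsFlatMod`. -/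
theorem exists_flat_galois_eigenmodule (hord : OrdStatement) [Fact p.Prime]
    (hpO : (p : O) ∈ maximalIdeal O)
    (hT : ∀ (i : ι) (γ : GalQ) (x : J), T i (γ • x) = γ • T i x)
    (hfin : {x : J | p • x = 0}.Finite)
    (hsm : ∀ x : J, (∃ n : ℕ, p ^ n • x = 0) →
      ∃ L : IntermediateField ℚ (AlgebraicClosure ℚ), FiniteDimensional ℚ L ∧
        ∀ σ : GalQ, (∀ y ∈ L, σ y = y) → σ • x = x)
    (v : ℕ → O ⊗[ℤ] J) (hv0 : (p : O) • v 0 = 0) (hv : ∀ n, (p : O) • v (n + 1) = v n)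
    (hne : v ≠ 0) (heig : ∀ i n, H529.tensorOp O T i (v n) = a i • v n)
    (hJ : ∀ k : ℕ, ∃ act : GalQ → ↥(Submodule.torsionBy ℤ J ((p : ℤ) ^ k)) →
        ↥(Submodule.torsionBy ℤ J ((p : ℤ) ^ k)),
      (∀ σ m, ((act σ m : ↥(Submodule.torsionBy ℤ J ((p : ℤ) ^ k))) : J) = σ • (m : J)) ∧
        HopfModel p ↥(Submodule.torsionBy ℤ J ((p : ℤ) ^ k)) act) :
    ∃ (M : Type) (_ : AddCommGroup M) (_ : Module O M) (_ : Module.Free O M)
      (_ : Module.Finite O M) (ρ : GalQ →* Module.End O M),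
      Nontrivial M ∧ GaloisActionIsAdicContinuous O ρ ∧
      (∀ γ : GalQ, (∀ x : J, (∃ n : ℕ, p ^ n • x = 0) → γ • x = x) → ρ γ = 1) ∧
      (∀ (γ : GalQ) (i : ι) (c : ℤ),
        (∀ x : J, (∃ n : ℕ, p ^ n • x = 0) → γ • γ • x - T i (γ • x) + c • x = 0) →
        ρ γ * ρ γ - a i • ρ γ + (c : O) • (1 : Module.End O M) = 0) ∧
      IsFlatMod p ρ := by
  have hp0 : p ≠ 0 := (Fact.out : p.Prime).ne_zero
  have hϖ0 : (p : O) ≠ 0 := by exact_mod_cast hp0
  have hX : ∃ Y : Submodule O (O ⊗[ℤ] J), Y.FG ∧ ∀ x : O ⊗[ℤ] J, (p : O) • x = 0 → x ∈ Y := by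
    obtain ⟨Y, hY, hYX⟩ := H529.exists_fg_of_finite_torsion O (J := J) (p : ℤ) (by
      have : {y : J | (p : ℤ) • y = 0} = {x : J | p • x = 0} := by
        ext y
        simp
      rw [this]
      exact hfin)
    refine ⟨Y, hY, fun x hx => hYX x ?_⟩
    have := H529.natCast_pow_smul p O J 1 x
    simp only [pow_one] at this
    rw [← this]
    exact hx
  have hρ := H529.tensorRep_tensorOp (G := GalQ) O T hT
  have hfree := H529.tateEigen_free (t := H529.tensorOp O T) (a := a) hpO hϖ0 hX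
  have hfinite := H529.tateEigen_finite (t := H529.tensorOp O T) (a := a) hpO hϖ0 hX
  have htrans : ∀ (A : J →ₗ[ℤ] J) (n : ℕ), (∀ y : J, p ^ n • y = 0 → A y = 0) →
      ∀ x : O ⊗[ℤ] J, (p : O) ^ n • x = 0 → A.baseChange O x = 0 := by
    intro A n hA x hx
    apply H529.baseChange_eq_zero_of_torsion O ((p ^ n : ℕ) : ℤ) A
    · intro y hy
      apply hA
      rwa [natCast_zsmul] at hy
    · rw [← H529.natCast_pow_smul]
      exact hx
  refine ⟨H529.tateEigen (p : O) (H529.tensorOp O T) a, inferInstance, inferInstance, hfree,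
    hfinite, H529.tateRep (H529.tensorRep O J) hρ, ?_, ?_, ?_, ?_,
    tateEigen_isFlatMod p O J T a hord hpO hT hJ⟩
  · refine ⟨⟨⟨v, hv0, hv, heig⟩, 0, ?_⟩⟩
    intro h
    exact hne (congrArg Subtype.val h)
  · intro n
    obtain ⟨L, hL, hLfix⟩ := H529.exists_common_level {x : J | p ^ n • x = 0}
      (H529.finite_torsion_pow J p hfin n) (fun x hx => hsm x ⟨n, hx⟩)
    refine ⟨L, hL, fun σ hσ m => ?_⟩
    apply H529.tateRep_sub_mem (H529.tensorRep O J) hρ hpO n σ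
    intro x hx
    have h1 := htrans (H529.actLin J σ - LinearMap.id) n (fun y hy => by
      simp [hLfix σ hσ y hy]) x hx
    rw [LinearMap.baseChange_sub, LinearMap.baseChange_id, LinearMap.sub_apply,
      LinearMap.id_apply, sub_eq_zero] at h1
    exact h1
  · intro γ hγ
    apply H529.tateRep_eq_one
    rintro x ⟨n, hx⟩
    have h1 := htrans (H529.actLin J γ - LinearMap.id) n (fun y hy => by
      simp [hγ y ⟨n, hy⟩]) x hx
    rw [LinearMap.baseChange_sub, LinearMap.baseChange_id, LinearMap.sub_apply,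
      LinearMap.id_apply, sub_eq_zero] at h1
    exact h1
  · intro γ i c hγ
    apply H529.tateRep_quadratic
    rintro x ⟨n, hx⟩
    have h1 := htrans (H529.actLin J γ ∘ₗ H529.actLin J γ
      - (T i).toIntLinearMap ∘ₗ H529.actLin J γ + c • LinearMap.id) n (fun y hy => by
        have := hγ y ⟨n, hy⟩
        simpa using this) x hx
    rw [LinearMap.baseChange_add, LinearMap.baseChange_sub, LinearMap.baseChange_comp,
      LinearMap.baseChange_comp, LinearMap.baseChange_smul, LinearMap.baseChange_id] at h1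
    simp only [LinearMap.add_apply, LinearMap.sub_apply, LinearMap.comp_apply,
      LinearMap.smul_apply, LinearMap.id_apply] at h1
    rw [Int.cast_smul_eq_zsmul]
    exact h1

end Main

/-! ### From the lattice data of the S30 skeleton -/

section Lattice

/-- **PIECE `Tate` of the S30 skeleton, with flatness** (cf.
`Fermat.Agent.S30.H649.exists_adicFrobModule_of_lattice`). -/
theorem exists_flat_adicFrobModule_of_lattice (hord : OrdStatement)
    {𝒪 : Type} [CommRing 𝒪] [IsDomain 𝒪] [IsDiscreteValuationRing 𝒪]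
    [IsAdicComplete (IsLocalRing.maximalIdeal 𝒪) 𝒪] [Finite (IsLocalRing.ResidueField 𝒪)]
    [CharZero 𝒪] {p : ℕ} (hp : p.Prime) (hp𝒪 : (p : 𝒪) ∈ IsLocalRing.maximalIdeal 𝒪)
    {J : Type} [AddCommGroup J] [DistribMulAction GalQ J]
    {ι : Type} (T : ι → J →ₗ[ℤ] J)
    (hTG : ∀ (i : ι) (σ : GalQ) (x : J), T i (σ • x) = σ • T i x)
    (hfin : Finite {x : J // (p : ℤ) • x = 0})
    (hsmooth : ∀ x : J, (∃ n : ℕ, ((p : ℤ) ^ n) • x = 0) →
      ∃ L : IntermediateField ℚ (AlgebraicClosure ℚ), FiniteDimensional ℚ L ∧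
        ∀ σ : GalQ, (∀ y ∈ L, σ y = y) → σ • x = x)
    {Λ : Type} [AddCommGroup Λ] [Module.Free ℤ Λ] [Module.Finite ℤ Λ]
    (TΛ : ι → Λ →ₗ[ℤ] Λ) (κ : ℕ → Λ →ₗ[ℤ] J)
    (hκ0 : ∀ (n : ℕ) (x : Λ), κ n x = 0 ↔ ∃ y : Λ, x = ((p : ℤ) ^ n) • y)
    (hκs : ∀ (n : ℕ) (x : Λ), (p : ℤ) • κ (n + 1) x = κ n x)
    (hκT : ∀ (i : ι) (n : ℕ) (x : Λ), κ n (TΛ i x) = T i (κ n x))
    (a : ι → 𝒪) (v : 𝒪 ⊗[ℤ] Λ) (hv : v ≠ 0)
    (hva : ∀ i : ι, (TΛ i).baseChange 𝒪 v = a i • v)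
    (hJ : ∀ k : ℕ, ∃ act : GalQ → ↥(Submodule.torsionBy ℤ J ((p : ℤ) ^ k)) →
        ↥(Submodule.torsionBy ℤ J ((p : ℤ) ^ k)),
      (∀ σ m, ((act σ m : ↥(Submodule.torsionBy ℤ J ((p : ℤ) ^ k))) : J) = σ • (m : J)) ∧
        HopfModel p ↥(Submodule.torsionBy ℤ J ((p : ℤ) ^ k)) act) :
    ∃ (M : Type) (_ : AddCommGroup M) (_ : Module 𝒪 M) (_ : Module.Free 𝒪 M)
      (_ : Module.Finite 𝒪 M) (ρ : GalQ →* Module.End 𝒪 M),
      Nontrivial M ∧ GaloisActionIsAdicContinuous 𝒪 ρ ∧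
      (∀ σ : GalQ, (∀ x : J, (∃ n : ℕ, ((p : ℤ) ^ n) • x = 0) → σ • x = x) → ρ σ = 1) ∧
      (∀ (σ : GalQ) (i : ι) (c : ℤ),
        (∀ x : J, (∃ n : ℕ, ((p : ℤ) ^ n) • x = 0) →
          σ • σ • x - T i (σ • x) + c • x = 0) →
        ρ σ * ρ σ - a i • ρ σ + (c : 𝒪) • (1 : Module.End 𝒪 M) = 0) ∧
      IsFlatMod p ρ := by
  classical
  have : Fact p.Prime := ⟨hp⟩
  have hpow : ∀ (n : ℕ) (x : J), ((p : ℤ) ^ n) • x = p ^ n • x := by
    intro n x
    rw [← Nat.cast_pow, natCast_zsmul]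
  have htors : ∀ x : J, (∃ n : ℕ, p ^ n • x = 0) ↔ (∃ n : ℕ, ((p : ℤ) ^ n) • x = 0) := by
    intro x
    constructor
    · rintro ⟨n, hn⟩; exact ⟨n, by rw [hpow]; exact hn⟩
    · rintro ⟨n, hn⟩; exact ⟨n, by rw [← hpow]; exact hn⟩
  let T' : ι → J →+ J := fun i => (T i).toAddMonoidHom
  have hT' : ∀ i, (T' i).toIntLinearMap = T i := fun i => LinearMap.ext fun _ => rfl
  have hfin' : {x : J | p • x = 0}.Finite := by
    have h1 : {x : J | (p : ℤ) • x = 0}.Finite := Set.finite_coe_iff.mp hfin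
    refine h1.subset fun x hx => ?_
    show (p : ℤ) • x = 0
    rw [natCast_zsmul]
    exact hx
  have hκzero : ∀ w : 𝒪 ⊗[ℤ] Λ, (κ 0).baseChange 𝒪 w = 0 := by
    have h0 : κ 0 = 0 := by
      apply LinearMap.ext
      intro x
      rw [LinearMap.zero_apply, hκ0 0 x]
      exact ⟨x, by rw [pow_zero, one_smul]⟩
    intro w
    rw [h0, LinearMap.baseChange_zero, LinearMap.zero_apply]
  have hκsucc : ∀ (n : ℕ) (w : 𝒪 ⊗[ℤ] Λ),
      (p : 𝒪) • (κ (n + 1)).baseChange 𝒪 w = (κ n).baseChange 𝒪 w := by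
    intro n w
    have h1 : (p : ℤ) • κ (n + 1) = κ n := LinearMap.ext fun x => hκs n x
    have h2 : ((p : ℤ) : 𝒪) • (κ (n + 1)).baseChange 𝒪 w
        = (p : ℤ) • (κ (n + 1)).baseChange 𝒪 w := H649.intCast_smul_tensor _ _
    rw [Int.cast_natCast] at h2
    rw [h2, ← LinearMap.smul_apply, ← LinearMap.baseChange_smul, h1]
  obtain ⟨n₀, hn₀⟩ := H649.exists_baseChange_ne_zero (𝒪 := 𝒪) hp𝒪 κ hκ0 v hv
  obtain ⟨m₀, rfl⟩ : ∃ m₀, n₀ = m₀ + 1 := by
    cases n₀ with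
    | zero => exact absurd (hκzero v) hn₀
    | succ m => exact ⟨m, rfl⟩
  let seq : ℕ → 𝒪 ⊗[ℤ] J := fun n => (κ (n + 1)).baseChange 𝒪 v
  have hseq0 : (p : 𝒪) • seq 0 = 0 := by
    show (p : 𝒪) • (κ (0 + 1)).baseChange 𝒪 v = 0
    rw [hκsucc 0 v, hκzero v]
  have hseqs : ∀ n, (p : 𝒪) • seq (n + 1) = seq n := fun n => hκsucc (n + 1) v
  have hseqne : seq ≠ 0 := fun h => hn₀ (congrFun h m₀)
  have hseqeig : ∀ i n, H529.tensorOp 𝒪 T' i (seq n) = a i • seq n := by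
    intro i n
    show ((T' i).toIntLinearMap.baseChange 𝒪) ((κ (n + 1)).baseChange 𝒪 v)
      = a i • (κ (n + 1)).baseChange 𝒪 v
    have h1 : T i ∘ₗ κ (n + 1) = κ (n + 1) ∘ₗ TΛ i :=
      LinearMap.ext fun x => (hκT i (n + 1) x).symm
    rw [hT' i, ← LinearMap.comp_apply, ← LinearMap.baseChange_comp, h1,
      LinearMap.baseChange_comp, LinearMap.comp_apply, hva i, map_smul]
  obtain ⟨M, i1, i2, i3, i4, ρ, hnt, hcont, hunr, hquad, hflat⟩ :=
    exists_flat_galois_eigenmodule p 𝒪 J T' a hord hp𝒪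
      (fun i γ x => hTG i γ x) hfin'
      (fun x hx => hsmooth x ((htors x).mp hx)) seq hseq0 hseqs hseqne hseqeig hJ
  refine ⟨M, i1, i2, i3, i4, ρ, hnt, hcont, ?_, ?_, hflat⟩
  · intro σ hσ
    exact hunr σ fun x hx => hσ x ((htors x).mp hx)
  · intro σ i c hσ
    exact hquad σ i c fun x hx => hσ x ((htors x).mp hx)

end Lattice

/-! ### EIG from the inputs of row S30 and the frozen S19 -/

section Inputs

open Fermat.Agent.S30.H990 (AdicEigenModule)

/-- **PIECE EIG** from the six inputs of the S30 skeleton (unfolded, as in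
`Fermat.Agent.S34.H789.result_of_inputs`), the ORD block and the frozen S19 in the form
`HopfModel p (Tors N p k) (torsAct N p k)` for `p ∤ N`. -/
theorem flatEigenStatement_of_inputs (hord : OrdStatement)
    (hS19 : ∀ (N p : ℕ) [NeZero N], p.Prime → ¬ p ∣ N → ∀ k : ℕ,
      HopfModel p (Tors N p k) (torsAct N p k))
    (hfin : ∀ (N p : ℕ) [NeZero N], p.Prime →
      Finite {x : ModularCurve.JZero N // (p : ℤ) • x = 0})
    (hsm : ∀ (N p : ℕ) [NeZero N], ∀ x : ModularCurve.JZero N,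
      (∃ n : ℕ, ((p : ℤ) ^ n) • x = 0) →
        ∃ L : IntermediateField ℚ (AlgebraicClosure ℚ), FiniteDimensional ℚ L ∧
          ∀ σ : GalQ, (∀ y ∈ L, σ y = y) → σ • x = x)
    (hgeq : ∀ (N : ℕ) [NeZero N] (ℓ : Nat.Primes) (σ : GalQ) (x : ModularCurve.JZero N),
      ModularCurve.heckeOperatorBar N ℓ (σ • x) = σ • ModularCurve.heckeOperatorBar N ℓ x)
    (hunr : ∀ (N p : ℕ) [NeZero N], ∀ q : ℕ, q.Prime → ¬ q ∣ N * p →
      ∀ A : ValuationSubring (AlgebraicClosure ℚ), A.LiesOverPrime q →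
        ∀ σ ∈ A.inertiaSubgroupIn ℚ, ∀ x : ModularCurve.JZero N,
          (∃ n : ℕ, ((p : ℤ) ^ n) • x = 0) → σ • x = x)
    (hes : ∀ (N p : ℕ) [NeZero N], ∀ (ℓ : ℕ) (hℓ : ℓ.Prime), ¬ ℓ ∣ N * p →
      ∀ A : ValuationSubring (AlgebraicClosure ℚ), A.LiesOverPrime ℓ →
        ∀ σ : GalQ, A.IsFrobeniusAt σ ℓ → ∀ x : ModularCurve.JZero N,
          (∃ n : ℕ, ((p : ℤ) ^ n) • x = 0) →
            σ • σ • x - ModularCurve.heckeOperatorBar N ⟨ℓ, hℓ⟩ (σ • x) + (ℓ : ℤ) • x = 0)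
    (hlat : ∀ (N p : ℕ) [NeZero N], p.Prime →
      ∃ (Λ : Type) (_ : AddCommGroup Λ) (_ : Module.Free ℤ Λ) (_ : Module.Finite ℤ Λ)
        (TΛ : Nat.Primes → Λ →ₗ[ℤ] Λ) (κ : ℕ → Λ →ₗ[ℤ] ModularCurve.JZero N),
        (∀ (n : ℕ) (x : Λ), κ n x = 0 ↔ ∃ y : Λ, x = ((p : ℤ) ^ n) • y) ∧
        (∀ (n : ℕ) (x : Λ), (p : ℤ) • κ (n + 1) x = κ n x) ∧
        (∀ ℓ : Nat.Primes, ¬ (ℓ : ℕ) ∣ N * p → ∀ (n : ℕ) (x : Λ),
          κ n (TΛ ℓ x) = ModularCurve.heckeOperatorBar N ℓ (κ n x)) ∧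
        (∀ (S : Set ℕ) (R : Type) [CommRing R] [IsDomain R] [CharZero R]
          (χ : CuspForm.heckeAlgebra N 2 S →+* R),
          ∃ v : R ⊗[ℤ] Λ, v ≠ 0 ∧
            ∀ (ℓ : ℕ) (hℓ : ℓ.Prime) (hℓN : ¬ ℓ ∣ N) (hℓS : ℓ ∉ S),
              (TΛ ⟨ℓ, hℓ⟩).baseChange R v = χ (CuspForm.heckeAlgebra.T hℓ hℓN hℓS) • v)) :
    FlatEigenStatement := by
  intro p _ N _ S hpS hNS hpN 𝒪' _ _ _ _ _ _ hp𝒪' χ
  have hp : p.Prime := Fact.out
  obtain ⟨Λ, i1, i2, i3, TΛ, κ, hκ0, hκs, hκT, hocc⟩ := hlat N p hp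
  obtain ⟨v, hv, hva⟩ := hocc (↑S : Set ℕ) 𝒪' χ
  have hNp : ∀ ℓ : ℕ, ℓ.Prime → ¬ ℓ ∣ N → ℓ ≠ p → ¬ ℓ ∣ N * p := by
    intro ℓ hℓ hℓN hℓp h
    rcases (Nat.Prime.dvd_mul hℓ).1 h with h | h
    · exact hℓN h
    · exact hℓp ((Nat.prime_dvd_prime_iff_eq hℓ hp).1 h)
  have hιp : ∀ i : {ℓ : Nat.Primes // ¬ (ℓ : ℕ) ∣ N ∧ (ℓ : ℕ) ∉ (↑S : Set ℕ)},
      ((i.1 : Nat.Primes) : ℕ) ≠ p := by
    intro i h
    exact i.2.2 (by rw [h]; exact hpS)
  obtain ⟨M, j1, j2, j3, j4, ρ, hnt, hcont, hone, hquad, hflat⟩ :=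
    exists_flat_adicFrobModule_of_lattice hord (𝒪 := 𝒪') hp hp𝒪' (J := ModularCurve.JZero N)
      (ι := {ℓ : Nat.Primes // ¬ (ℓ : ℕ) ∣ N ∧ (ℓ : ℕ) ∉ (↑S : Set ℕ)})
      (fun i => ModularCurve.heckeOperatorBar N i.1)
      (fun i σ x => hgeq N i.1 σ x) (hfin N p hp) (hsm N p)
      (fun i => TΛ i.1) κ hκ0 hκs
      (fun i n x => hκT i.1 (hNp _ i.1.2 i.2.1 (hιp i)) n x)
      (fun i => χ (CuspForm.heckeAlgebra.T i.1.2 i.2.1 i.2.2)) v hv
      (fun i => hva i.1 i.1.2 i.2.1 i.2.2)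
      (fun k => ⟨torsAct N p k, fun _ _ => rfl, hS19 N p hp hpN k⟩)
  exact ⟨{ M := M
           ρ := ρ
           cont := hcont
           unram := fun q hq hqN hqp P hP σ hσ =>
             hone σ fun x hx => hunr N p q hq (hNp q hq hqN hqp) P hP σ hσ x hx
           frob := fun ℓ hℓ hℓN hℓS A hA σ hσ => by
             have h := hquad σ ⟨⟨ℓ, hℓ⟩, hℓN, hℓS⟩ ((ℓ : ℕ) : ℤ)
               (fun x hx => hes N p ℓ hℓ
                 (hNp ℓ hℓ hℓN (hιp ⟨⟨ℓ, hℓ⟩, hℓN, hℓS⟩)) A hA σ hσ x hx)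
             simpa using h }, hflat⟩

end Inputs

end Fermat.Agent.S32
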