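/-
Row S32 (flat at `p`), piece EIG on the LANDED chain of row S30 (helper32).

The chain of row S30 which is on main (`S30/H330/AdicChain.lean`, `S30/H222/OfNodes.lean`)
builds the adic eigenmodule from an eigen-homomorphism `f : Frac 𝒪 / 𝒪 → J₀(N)(ℚ̄)`
(`H330.exists_eigenHom_of_inj`) as the Tate eigenmodule of `X = Hom_ℤ(𝒪, J)`
(`S30/H529/HomTate.lean`).  Here the same module is shown to be FLAT (`IsFlatMod`): evaluation at
the `n`-th component followed by evaluation at representatives `o_i` of `𝒪 / p ^ (n + 1)` is an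
equivariant map `M → J[p ^ (n + 1)] ^ r` with kernel `p ^ (n + 1) M`.

* `homEigen_isFlatMod` : flatness of the Tate eigenmodule of `Hom_ℤ(𝒪, J)`;
* `exists_flat_homEigenmodule` : `S30.H529.adicModule_of_torsion` with the additional conclusion;
* `flatEigenStatement_of_chain` : EIG from (K'), (F), (T) of the adic module layer + frozen S19;
* `flatEigenStatement_of_k3fin_rawESAll` : EIG from the two inputs of
  `H330.result_of_k3fin_rawESAll` + frozen S19.
-/
import Fermat.Agent.S32.Top
import Fermat.Agent.S30.H529.HomTate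
import Fermat.Agent.S30.H330.AdicChain
import Fermat.Prelude.Def_ModularCurve_HeckeModule

set_option autoImplicit false

noncomputable section

namespace Fermat.Agent.S32

open IsLocalRing Fermat.Agent.S19 Fermat.Agent.S30

/-! ### Representatives modulo a nonzero element of a DVR with finite residue field -/

section RepsHom

variable {O : Type} [CommRing O] [IsDomain O] [IsDiscreteValuationRing O]
  [Finite (ResidueField O)]

theorem exists_reps_mod {x : O} (hx : x ≠ 0) :
    ∃ (r : ℕ) (o : Fin r → O), ∀ b : O, ∃ i : Fin r, ∃ d : O, b = o i + x * d := by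
  obtain ⟨n, hn⟩ := H529.exists_pow_maximalIdeal_le_span hx
  have h1 : Finite (O ⧸ maximalIdeal O ^ n) := by
    have : Finite (O ⧸ maximalIdeal O) := (inferInstance : Finite (ResidueField O))
    exact Ideal.finite_quotient_pow (IsNoetherian.noetherian _) n
  have h2 : Finite (O ⧸ Ideal.span {x}) :=
    Finite.of_surjective (Ideal.Quotient.factor hn) (Ideal.Quotient.factor_surjective hn)
  let e := Finite.equivFin (O ⧸ Ideal.span {x})
  refine ⟨Nat.card (O ⧸ Ideal.span {x}),
    fun i => Function.surjInv Ideal.Quotient.mk_surjective (e.symm i), fun b => ?_⟩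
  refine ⟨e (Ideal.Quotient.mk _ b), ?_⟩
  have h3 : Ideal.Quotient.mk (Ideal.span {x})
      (Function.surjInv Ideal.Quotient.mk_surjective (e.symm (e (Ideal.Quotient.mk _ b)))) =
      Ideal.Quotient.mk _ b :=
    (Function.surjInv_eq Ideal.Quotient.mk_surjective _).trans (e.symm_apply_apply _)
  have h4 : b - Function.surjInv Ideal.Quotient.mk_surjective
      (e.symm (e (Ideal.Quotient.mk (Ideal.span {x}) b))) ∈ Ideal.span {x} := by
    rw [← Ideal.Quotient.eq_zero_iff_mem, map_sub, h3, sub_self]
  obtain ⟨d, hd⟩ := Ideal.mem_span_singleton'.mp h4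
  exact ⟨d, by rw [mul_comm, hd]; ring⟩

end RepsHom

/-! ### Flatness of the Tate eigenmodule of `Hom_ℤ(𝒪, J)` -/

section FlatHom

variable (p : ℕ)
variable (O : Type) [CommRing O] [IsDomain O] [IsDiscreteValuationRing O]
  [Finite (ResidueField O)] [CharZero O]
variable (J : Type) [AddCommGroup J] [DistribMulAction GalQ J]
variable {ι : Type} (t : ι → J →+ J) (a : ι → O)

/-- **The Tate eigenmodule of `Hom_ℤ(𝒪, J)` is flat** if the torsion groups `J[p ^ k]` carry Hopf
models. -/
theorem homEigen_isFlatMod (hord : OrdStatement) [Fact p.Prime]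
    (hpO : (p : O) ∈ maximalIdeal O)
    (hρ : ∀ (σ : GalQ) (i : ι) (h : H529.PreHom O J),
      H529.preHomRep O J σ (H529.PreHom.post (t i) h)
        = H529.PreHom.post (t i) (H529.preHomRep O J σ h))
    (hJ : ∀ k : ℕ, ∃ act : GalQ → ↥(Submodule.torsionBy ℤ J ((p : ℤ) ^ k)) →
        ↥(Submodule.torsionBy ℤ J ((p : ℤ) ^ k)),
      (∀ σ m, ((act σ m : ↥(Submodule.torsionBy ℤ J ((p : ℤ) ^ k))) : J) = σ • (m : J)) ∧
        HopfModel p ↥(Submodule.torsionBy ℤ J ((p : ℤ) ^ k)) act) :
    IsFlatMod p (H529.tateRep (ϖ := (p : O)) (t := fun i => H529.PreHom.post (t i)) (a := a)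
      (H529.preHomRep O J) hρ) := by
  intro I hI
  have hp0 : (p : O) ≠ 0 := by
    exact_mod_cast (Fact.out : p.Prime).ne_zero
  obtain ⟨n, hn⟩ := exists_pow_le_of_finite_quotient I hI
  have hpI : (p : O) ^ (n + 1) ∈ I := by
    rw [pow_succ]
    exact Ideal.mul_mem_right _ _ (hn (Ideal.pow_mem_pow hpO n))
  obtain ⟨r, o, ho⟩ := exists_reps_mod (pow_ne_zero (n + 1) hp0)
  obtain ⟨act, hact, hHopf⟩ := hJ (n + 1)
  have hY := H135.hopfModel_power hord hHopf (Fin r)
  -- values of the `n`-th component are killed by `p ^ (n + 1)`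
  have hval : ∀ (v : ↥(H529.tateEigen (p : O) (fun i => H529.PreHom.post (t i)) a)) (x : O),
      H529.PreHom.toHom ((v : ℕ → H529.PreHom O J) n) x
        ∈ Submodule.torsionBy ℤ J ((p : ℤ) ^ (n + 1)) := by
    intro v x
    rw [Submodule.mem_torsionBy_iff, ← Nat.cast_pow, natCast_zsmul,
      ← H529.PreHom.natCast_pow_smul_apply, H529.tate_pow_succ_smul v.2 n]
    rfl
  let e' : ↥(H529.tateEigen (p : O) (fun i => H529.PreHom.post (t i)) a) →+
      (Fin r → ↥(Submodule.torsionBy ℤ J ((p : ℤ) ^ (n + 1)))) :=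
    { toFun := fun v i => ⟨H529.PreHom.toHom ((v : ℕ → H529.PreHom O J) n) (o i), hval v (o i)⟩
      map_zero' := by
        funext i
        apply Subtype.ext
        rfl
      map_add' := by
        intro v w
        funext i
        apply Subtype.ext
        rfl }
  have he' : ∀ v i, ((e' v i : ↥(Submodule.torsionBy ℤ J ((p : ℤ) ^ (n + 1)))) : J)
      = H529.PreHom.toHom ((v : ℕ → H529.PreHom O J) n) (o i) := fun _ _ => rfl
  refine hopfModel_of_family hord
    (fun σ => (H529.tateRep (ϖ := (p : O)) (t := fun i => H529.PreHom.post (t i)) (a := a)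
      (H529.preHomRep O J) hρ σ).toAddMonoidHom) _ 1
    (fun _ => Fin r → ↥(Submodule.torsionBy ℤ J ((p : ℤ) ^ (n + 1))))
    (fun _ σ y i => act σ (y i)) (fun _ => hY)
    (fun _ => e') ?_ (Submodule.mkQ _).toAddMonoidHom (Submodule.mkQ_surjective _)
    (fun _ _ => rfl) ?_
  · intro _ σ v
    funext i
    apply Subtype.ext
    rw [hact, he', he']
    rfl
  · intro v hv
    refine (Submodule.Quotient.mk_eq_zero _).mpr ?_
    have hvi : ∀ i, H529.PreHom.toHom ((v : ℕ → H529.PreHom O J) n) (o i) = 0 := by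
      intro i
      rw [← he', hv 0]
      rfl
    have h0 : (v : ℕ → H529.PreHom O J) n = 0 := by
      apply H529.PreHom.ext
      intro x
      obtain ⟨i, d, hd⟩ := ho x
      have h1 : H529.PreHom.toHom ((v : ℕ → H529.PreHom O J) n) ((p : O) ^ (n + 1) * d) = 0 := by
        rw [← H529.PreHom.smul_apply, H529.tate_pow_succ_smul v.2 n]
        rfl
      rw [hd, map_add, hvi i, h1, add_zero]
      rfl
    have hlt : ∀ m, m < n + 1 → (v : ℕ → H529.PreHom O J) m = 0 := by
      intro m hm
      obtain ⟨k, rfl⟩ : ∃ k, n = m + k := ⟨n - m, by omega⟩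
      rw [← H529.tate_pow_smul v.2 k m, h0, smul_zero]
    obtain ⟨w, hw, hvw⟩ := H529.tate_exists_eq_pow_smul v.2 (n + 1) hlt
    have h1 : v = (p : O) ^ (n + 1) • (⟨w, hw⟩ : ↥(H529.tateEigen (p : O)
        (fun i => H529.PreHom.post (t i)) a)) := by
      apply Subtype.ext
      rw [hvw]
      rfl
    rw [h1]
    exact Submodule.smul_mem_smul hpI Submodule.mem_top

end FlatHom

/-! ### The flat eigenmodule attached to an eigen-homomorphism `Frac 𝒪 / 𝒪 → J` -/

section MainHom

/-- `S30.H529.adicModule_of_torsion` (piece 1 of the adic module layer of row S30) with the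
additional conclusion `IsFlatMod`. -/
theorem exists_flat_homEigenmodule (hord : OrdStatement)
    {p : ℕ} (hp : p.Prime)
    {O : Type} [CommRing O] [IsDomain O] [IsDiscreteValuationRing O]
    [IsAdicComplete (IsLocalRing.maximalIdeal O) O] [Finite (IsLocalRing.ResidueField O)]
    [CharZero O] (hpO : (p : O) ∈ IsLocalRing.maximalIdeal O)
    {J : Type} [AddCommGroup J] [DistribMulAction GalQ J]
    (hsm : ∀ x : J, ∃ L : IntermediateField ℚ (AlgebraicClosure ℚ), FiniteDimensional ℚ L ∧
      ∀ σ : GalQ, (∀ y ∈ L, σ y = y) → σ • x = x)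
    (hfin : {x : J | p • x = 0}.Finite)
    {ι : Type} (t : ι → J →+ J) (ht : ∀ i (σ : GalQ) (x : J), σ • t i x = t i (σ • x))
    (a : ι → O)
    (f : FractionRing O →+ J) (hf0 : ∀ r : O, f (algebraMap O (FractionRing O) r) = 0)
    (hf : f ≠ 0)
    (hfe : ∀ i x, t i (f x) = f (algebraMap O (FractionRing O) (a i) * x))
    (hJ : ∀ k : ℕ, ∃ act : GalQ → ↥(Submodule.torsionBy ℤ J ((p : ℤ) ^ k)) →
        ↥(Submodule.torsionBy ℤ J ((p : ℤ) ^ k)),
      (∀ σ m, ((act σ m : ↥(Submodule.torsionBy ℤ J ((p : ℤ) ^ k))) : J) = σ • (m : J)) ∧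
        HopfModel p ↥(Submodule.torsionBy ℤ J ((p : ℤ) ^ k)) act) :
    ∃ (M : Type) (_ : AddCommGroup M) (_ : Module O M) (_ : Module.Free O M)
      (_ : Module.Finite O M) (ρ : GalQ →* Module.End O M),
      Nontrivial M ∧ GaloisActionIsAdicContinuous O ρ ∧
      (∀ σ : GalQ, (∀ x : J, (∃ n : ℕ, p ^ n • x = 0) → σ • x = x) → ρ σ = 1) ∧
      (∀ (i : ι) (n : ℕ) (σ : GalQ),
        (∀ x : J, (∃ k : ℕ, p ^ k • x = 0) → σ • σ • x - t i (σ • x) + n • x = 0) →
        ρ σ * ρ σ - a i • ρ σ + (n : O) • (1 : Module.End O M) = 0) ∧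
      IsFlatMod p ρ := by
  have : Fact p.Prime := ⟨hp⟩
  have hϖ0 : (p : O) ≠ 0 := by exact_mod_cast hp.ne_zero
  have hpL : algebraMap O (FractionRing O) (p : O) ≠ 0 := by
    intro h
    exact hϖ0 ((IsFractionRing.injective O (FractionRing O)) (by rw [h, map_zero]))
  -- operators
  set t' : ι → H529.PreHom O J →ₗ[O] H529.PreHom O J := fun i => H529.PreHom.post (t i) with ht'
  have hρ : ∀ (σ : GalQ) (i : ι) (h : H529.PreHom O J),
      H529.preHomRep O J σ (t' i h) = t' i (H529.preHomRep O J σ h) := by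
    intro σ i h
    apply H529.PreHom.ext
    intro x
    simp only [ht', H529.preHomRep_apply, H529.PreHom.post_apply]
    exact ht i σ _
  -- finiteness
  have hX : ∃ Y : Submodule O (H529.PreHom O J), Y.FG ∧
      ∀ h : H529.PreHom O J, (p : O) • h = 0 → h ∈ Y := by
    have hfinX := H529.preHom_torsion_finite (O := O) (J := J) p hϖ0 hfin
    exact ⟨Submodule.span O {h : H529.PreHom O J | (p : O) • h = 0},
      Submodule.fg_span hfinX, fun h hh => Submodule.subset_span hh⟩
  have hfree := H529.tateEigen_free (t := t') (a := a) hpO hϖ0 hX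
  have hfinite := H529.tateEigen_finite (t := t') (a := a) hpO hϖ0 hX
  -- torsion values
  have hval : ∀ (k : ℕ) (h : H529.PreHom O J), (p : O) ^ k • h = 0 →
      ∀ x : O, p ^ k • H529.PreHom.toHom h x = 0 := by
    intro k h hh x
    rw [← H529.PreHom.natCast_pow_smul_apply, hh]
    rfl
  refine ⟨H529.tateEigen (p : O) t' a, inferInstance, inferInstance, hfree, hfinite,
    H529.tateRep (H529.preHomRep O J) hρ, ?_, ?_, ?_, ?_,
    homEigen_isFlatMod p O J t a hord hpO hρ hJ⟩
  · -- nontrivial
    have hmem : H529.seqOfHom p f ∈ H529.tateEigen (p : O) t' a := by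
      refine ⟨?_, ?_, ?_⟩
      · apply H529.PreHom.ext
        intro x
        rw [H529.PreHom.smul_apply, H529.seqOfHom_apply,
          (algebraMap O (FractionRing O)).map_mul]
        have : algebraMap O (FractionRing O) (p : O) * algebraMap O (FractionRing O) x
            * (algebraMap O (FractionRing O) (p : O) ^ (0 + 1))⁻¹
            = algebraMap O (FractionRing O) x := by
          field_simp
          ring
        rw [this, hf0]
        rfl
      · intro n
        apply H529.PreHom.ext
        intro x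
        rw [H529.PreHom.smul_apply, H529.seqOfHom_apply, H529.seqOfHom_apply,
          (algebraMap O (FractionRing O)).map_mul]
        congr 1
        field_simp
        ring
      · intro i n
        apply H529.PreHom.ext
        intro x
        rw [H529.PreHom.smul_apply, H529.seqOfHom_apply]
        simp only [ht', H529.PreHom.post_apply]
        rw [H529.seqOfHom_apply, hfe, (algebraMap O (FractionRing O)).map_mul, mul_assoc]
    have hne : H529.seqOfHom p f ≠ 0 := by
      intro h0
      apply hf
      apply AddMonoidHom.ext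
      intro y
      obtain ⟨x, s, hs, rfl⟩ := IsFractionRing.div_surjective (A := O) y
      have hs0 : s ≠ 0 := nonZeroDivisors.ne_zero hs
      obtain ⟨k, c, hc⟩ := H529.exists_dvd_pow_of_mem_maximalIdeal hpO hs0
      have h1 := congrArg (fun h => H529.PreHom.toHom h (x * c * (p : O))) (congrFun h0 k)
      simp only [H529.seqOfHom_apply] at h1
      have hsL : algebraMap O (FractionRing O) s ≠ 0 := by
        intro h
        exact hs0 ((IsFractionRing.injective O (FractionRing O)) (by rw [h, map_zero]))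
      have h2 : algebraMap O (FractionRing O) (x * c * (p : O))
          * (algebraMap O (FractionRing O) (p : O) ^ (k + 1))⁻¹
          = algebraMap O (FractionRing O) x / algebraMap O (FractionRing O) s := by
        have h3 : algebraMap O (FractionRing O) (p : O) ^ k
            = algebraMap O (FractionRing O) s * algebraMap O (FractionRing O) c := by
          rw [← map_pow, hc, map_mul]
        rw [pow_succ, h3, (algebraMap O (FractionRing O)).map_mul,
          (algebraMap O (FractionRing O)).map_mul]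
        have hcL : algebraMap O (FractionRing O) c ≠ 0 := by
          intro h
          rw [h, mul_zero] at h3
          exact hpL (pow_eq_zero_iff (by
            intro hk
            subst hk
            simp at h3) |>.mp h3)
        field_simp
      rw [h2] at h1
      rw [h1]
      rfl
    refine ⟨⟨⟨H529.seqOfHom p f, hmem⟩, 0, ?_⟩⟩
    intro h
    exact hne (congrArg Subtype.val h)
  · -- continuity
    intro n
    obtain ⟨L, hL, hLfix⟩ := H529.exists_common_level {x : J | p ^ n • x = 0}
      (H529.finite_torsion_pow J p hfin n) (fun x _ => hsm x)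
    refine ⟨L, hL, fun σ hσ m => ?_⟩
    apply H529.tateRep_sub_mem (H529.preHomRep O J) hρ hpO n σ
    intro h hh
    apply H529.PreHom.ext
    intro x
    rw [H529.preHomRep_apply]
    exact hLfix σ hσ _ (hval n h hh x)
  · -- trivial action
    intro σ hσ
    apply H529.tateRep_eq_one
    rintro h ⟨k, hh⟩
    apply H529.PreHom.ext
    intro x
    rw [H529.preHomRep_apply]
    exact hσ _ ⟨k, hval k h hh x⟩
  · -- quadratic relations
    intro i n σ hσ
    apply H529.tateRep_quadratic
    rintro h ⟨k, hh⟩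
    apply H529.PreHom.ext
    intro x
    have h1 := hσ (H529.PreHom.toHom h x) ⟨k, hval k h hh x⟩
    simp only [ht', H529.PreHom.toHom_add, H529.PreHom.toHom_sub, AddMonoidHom.add_apply,
      AddMonoidHom.sub_apply, H529.preHomRep_apply, H529.PreHom.post_apply,
      H529.PreHom.natCast_smul_apply, H529.PreHom.toHom_zero, AddMonoidHom.zero_apply]
    exact h1

end MainHom

/-! ### EIG from the inputs of the adic module layer of row S30 and the frozen S19 -/

section Chain

open Fermat.Agent.S30.H990 (AdicEigenModule)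
open Fermat.Agent.S30.H330

/-- **PIECE EIG** from the inputs (K'), (F), (T) of the adic module layer of row S30
(`H330.result_of_inj`), the ORD block and the frozen S19 in the form
`HopfModel p (Tors N p k) (torsAct N p k)` for `p ∤ N`. -/
theorem flatEigenStatement_of_chain (hord : OrdStatement)
    (hS19 : ∀ (N p : ℕ) [NeZero N], p.Prime → ¬ p ∣ N → ∀ k : ℕ,
      HopfModel p (Tors N p k) (torsAct N p k))
    (hK : ∀ (N : ℕ) [NeZero N] (p : ℕ) [Fact p.Prime], KummerInjStatement N p)
    (hF : ∀ (N : ℕ) [NeZero N] (p : ℕ) [Fact p.Prime], FinStatement N p)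
    (hT : ∀ (N : ℕ) [NeZero N] (p : ℕ) [Fact p.Prime], TorsionRelations N p) :
    FlatEigenStatement := by
  intro p _ N _ S hpS hNS hpN 𝒪' _ _ _ _ _ _ hp𝒪' χ
  classical
  have hp : p.Prime := Fact.out
  obtain ⟨f, hf0, hf, hfe⟩ :=
    exists_eigenHom_of_inj hpS hNS hp𝒪' χ (hK N p) (parEigenStatement hNS χ)
  have hSm := Fermat.Agent.S30.H990.smoothStatement N
  have hGH := Fermat.Agent.S30.H990.galoisHeckeStatement N
  obtain ⟨M, j1, j2, j3, j4, ρ, hnt, hcont, hunr, hquad, hflat⟩ :=
    exists_flat_homEigenmodule hord (O := 𝒪') hp hp𝒪' (J := ModularCurve.JZero N)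
      (fun x => hSm x) (hF N p)
      (ι := {ℓ : Nat.Primes // (ℓ : ℕ) ∉ S})
      (fun i => (ModularCurve.heckeOperatorBar N i.1).toAddMonoidHom)
      (fun i σ x => hGH σ i.1 x)
      (fun i => eigenvalue χ (i.1 : ℕ)) f hf0 hf (fun i x => hfe i.1 i.2 x)
      (fun k => ⟨torsAct N p k, fun _ _ => rfl, hS19 N p hp hpN k⟩)
  have hdvd : ∀ q : ℕ, q.Prime → ¬ q ∣ N → q ≠ p → ¬ q ∣ N * p := by
    intro q hq hqN hqp hdiv
    rcases (Nat.Prime.dvd_mul hq).1 hdiv with h1 | h1
    · exact hqN h1
    · exact hqp ((Nat.prime_dvd_prime_iff_eq hq hp).1 h1)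
  exact ⟨{ M := M
           ρ := ρ
           cont := hcont
           unram := fun q hq hqN hqp P hP σ hσ =>
             hunr σ fun x hx => (hT N p q hq (hdvd q hq hqN hqp) P hP).1 σ hσ x hx
           frob := fun ℓ hℓ hℓN hℓS A hA σ hσ => by
             have hℓS' : ℓ ∉ S := fun hmem => hℓS (Finset.mem_coe.mpr hmem)
             have hℓp : ℓ ≠ p := fun h => hℓS' (h ▸ hpS)
             have h1 := hquad ⟨⟨ℓ, hℓ⟩, hℓS'⟩ ℓ σ
               fun x hx => (hT N p ℓ hℓ (hdvd ℓ hℓ hℓN hℓp) A hA).2 σ hσ x hx
             have h2 : eigenvalue χ ℓ = χ (CuspForm.heckeAlgebra.T hℓ hℓN hℓS) := by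
               unfold eigenvalue
               rw [dif_pos ⟨hℓ, hℓN, hℓS⟩]
             rw [← h2]
             exact h1 }, hflat⟩

/-- **PIECE EIG** from the two inputs of `H330.result_of_k3fin_rawESAll` (the landed chain of
row S30), the ORD block and the frozen S19. -/
theorem flatEigenStatement_of_k3fin_rawESAll (hord : OrdStatement)
    (hS19 : ∀ (N p : ℕ) [NeZero N], p.Prime → ¬ p ∣ N → ∀ k : ℕ,
      HopfModel p (Tors N p k) (torsAct N p k))
    (hfin : ∀ (N : ℕ) [NeZero N] (p : ℕ) [Fact p.Prime] (n : ℕ),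
      Fermat.Agent.S29.M4b.K3.FinStatement N (p ^ n))
    (hES : ∀ (N : ℕ) [NeZero N], RawESAll N) :
    FlatEigenStatement :=
  flatEigenStatement_of_chain hord hS19
    (fun N _ p hp =>
      haveI : NeZero p := ⟨hp.out.ne_zero⟩
      kummerInjStatement_of_k3fin N p (fun n => hfin N p n))
    (fun N _ p hp =>
      haveI : NeZero p := ⟨hp.out.ne_zero⟩
      finStatement N p)
    (fun N _ p _ => torsionRelations_of_rawAll p (hES N))

end Chain

end Fermat.Agent.S32
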