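/-
Row S32 (flat at `p`), FINAL WIRING up to the wall S19 (helper32).

`s32_of_s19` : the frozen statement S32 (as the `Prop` `S32Statement` of `Spec.lean`) from the
frozen S19 ALONE, in the form `HopfModel p (Tors N p k) (torsAct N p k)` for `p ∤ N`.

All other pieces are on main and are wired here:
* ORD  `A3.H619.ord` (cell A3);
* EIG  `flatEigenStatement_of_chain` (`EigChain.lean`) on the landed chain of row S30:
       (K') `S30.Chain.kumPackage`, (F) `S30.H810.exists_isKum_of_torsion`,
       (T) `S30.H694.torsionRelations_of_nodes` with the two nodes of row S18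
       (`S18.Mod.H216.node_mod`, `S18.H438.node_alg`) — the same inputs as `Fermat/Agent/S30.lean`;
* REL  `H692.rel`;  EMB `H152.embedStatement`;  RED `H185.red`;  POINTS `S59.G4.H109.points`.

`s32_of_frozen_s19` takes the frozen statement S19 verbatim.
-/
import Fermat.Agent.S32.EigChain
import Fermat.Agent.S32.H692.Rel
import Fermat.Agent.S32.H152.Emb
import Fermat.Agent.S32.H185.Red
import Fermat.Agent.S59.G4.H109.Points
import Fermat.Agent.A3.H619.OrdStatement
import Fermat.Agent.S30.Chain.FromT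
import Fermat.Agent.S30.H694.TorsionRelOfNodes
import Fermat.Agent.S18.Mod.H216.NodeMod
import Fermat.Agent.S18.H438.NodeAlg

set_option autoImplicit false

noncomputable section

namespace Fermat.Agent.S32

open Fermat.Agent.S19

/-- **EIG, unconditionally up to S19.** -/
theorem flatEigenStatement_of_s19
    (hS19 : ∀ (N p : ℕ) [NeZero N], p.Prime → ¬ p ∣ N → ∀ k : ℕ,
      HopfModel p (Tors N p k) (torsAct N p k)) :
    FlatEigenStatement :=
  flatEigenStatement_of_chain Fermat.Agent.A3.H619.ord hS19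
    (fun N _ p hp =>
      haveI : NeZero p := ⟨hp.out.ne_zero⟩
      Fermat.Agent.S30.H330.kummerInjStatement_of_packages (fun n =>
        haveI : NeZero (p ^ n) := ⟨pow_ne_zero n hp.out.ne_zero⟩
        Fermat.Agent.S30.Chain.kumPackage N (p ^ n)))
    (fun N _ p hp =>
      haveI : NeZero p := ⟨hp.out.ne_zero⟩
      Fermat.Agent.S30.H330.finStatement_of_onto
        (Fermat.Agent.S30.Chain.kumPackage N p).uniq
        (fun _ hx => Fermat.Agent.S30.H810.exists_isKum_of_torsion N p hx))
    (Fermat.Agent.S30.H694.torsionRelations_of_nodes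
      (fun M _ _ _ hℓM A hA => Fermat.Agent.S18.Mod.H216.node_mod M hℓM A hA)
      (fun M => Fermat.Agent.S18.H438.node_alg M))

/-- **The frozen statement S32 from the frozen S19** (Hopf-model form). -/
theorem s32_of_s19
    (hS19 : ∀ (N p : ℕ) [NeZero N], p.Prime → ¬ p ∣ N → ∀ k : ℕ,
      HopfModel p (Tors N p k) (torsAct N p k)) :
    S32Statement :=
  s32_of_pieces Fermat.Agent.A3.H619.ord (flatEigenStatement_of_s19 hS19)
    Fermat.Agent.S32.H692.rel Fermat.Agent.S32.H152.embedStatement Fermat.Agent.S32.H185.red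
    Fermat.Agent.S59.G4.H109.points

/-- **The frozen statement S32 from the frozen statement S19** (verbatim). -/
theorem s32_of_frozen_s19
    (h19 : ∀ (p : ℕ) [NeZero p] (ℓ : ℕ) [Fact ℓ.Prime] (_hℓp : ¬ ℓ ∣ p) (k : ℕ),
      ∃ (H : Type) (_ : CommRing H) (_ : HopfAlgebra (GaloisRep.ratLocalizedAt ℓ) H),
        Module.Finite (GaloisRep.ratLocalizedAt ℓ) H ∧
        Module.Flat (GaloisRep.ratLocalizedAt ℓ) H ∧
        Coalgebra.IsCocomm (GaloisRep.ratLocalizedAt ℓ) H ∧
        ∃ e : WithConv (H →ₐ[GaloisRep.ratLocalizedAt ℓ] AlgebraicClosure ℚ) ≃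
            ↥(Submodule.torsionBy ℤ (ModularCurve.JZero p) ((ℓ : ℤ) ^ k)),
          (∀ f g, e (f * g) = e f + e g) ∧
          ∀ (σ : AlgebraicClosure ℚ ≃ₐ[ℚ] AlgebraicClosure ℚ)
            (f g : WithConv (H →ₐ[GaloisRep.ratLocalizedAt ℓ] AlgebraicClosure ℚ)),
            (∀ h : H, g h = σ (f h)) →
              ((e g : ModularCurve.JZero p)) = σ • (e f : ModularCurve.JZero p)) :
    S32Statement :=
  s32_of_s19 (fun N p _ hp hpN k =>
    haveI : Fact p.Prime := ⟨hp⟩
    H135.hopfModel_of_frozenShape N p k (h19 N p hpN k))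

end Fermat.Agent.S32
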